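/-
PROJECT C, Layer B glue (helper21): relative Brauer groups of field extensions.

For a tower of fields `K ⊆ E ⊆ M` we define `Br K M := H²(Gal(M/K), Mˣ)` (Mathlib's
`groupCohomology` of `Rep.ofAlgebraAutOnUnits K M`) together with the field-level restriction
`resBr : Br K M ⟶ Br E M` and inflation `infBr : Br K E ⟶ Br K M`, with cocycle formulas.
-/
import Mathlib

set_option autoImplicit false

noncomputable section

namespace Fermat.Agent.CFT.GaloisDict

open groupCohomology CategoryTheory Rep

/-- The `ℤ`-representation of `Gal(M/K)` on (the additive version of) `Mˣ`. -/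
abbrev unitsRep (K M : Type) [Field K] [Field M] [Algebra K M] : Rep ℤ (M ≃ₐ[K] M) :=
  Rep.ofAlgebraAutOnUnits K M

/-- The relative Brauer group `H²(Gal(M/K), Mˣ)`. -/
abbrev Br (K M : Type) [Field K] [Field M] [Algebra K M] : ModuleCat ℤ :=
  groupCohomology (unitsRep K M) 2

variable (K E M : Type) [Field K] [Field E] [Field M] [Algebra K E] [Algebra E M] [Algebra K M]
  [IsScalarTower K E M]

theorem unitsRep_ρ_apply (g : M ≃ₐ[K] M) (a : Additive Mˣ) :
    (unitsRep K M).ρ g a = Additive.ofMul (Units.map (g : M →* M) a.toMul) := rfl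

/-- The morphism of representations underlying restriction `Br K M ⟶ Br E M`: the identity of
`Mˣ`, equivariant along `Gal(M/E) → Gal(M/K)`. -/
def resRepHom :
    res (AlgEquiv.restrictScalarsHom K : (M ≃ₐ[E] M) →* (M ≃ₐ[K] M)) (unitsRep K M) ⟶
      unitsRep E M :=
  ofHom ⟨LinearMap.id, fun _ => rfl⟩

/-- Restriction `Br(M/K) ⟶ Br(M/E)`. -/
def resBr : Br K M ⟶ Br E M :=
  groupCohomology.map (AlgEquiv.restrictScalarsHom K) (resRepHom K E M) 2


/-- Cocycle-level restriction. -/
abbrev resCocycles₂ : ModuleCat.of ℤ (cocycles₂ (unitsRep K M)) ⟶ ModuleCat.of ℤ (cocycles₂ (unitsRep E M)) :=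
  mapCocycles₂ (AlgEquiv.restrictScalarsHom K) (resRepHom K E M)

theorem resCocycles₂_apply (x : cocycles₂ (unitsRep K M)) (g h : M ≃ₐ[E] M) :
    (resCocycles₂ K E M x) (g, h) = x (g.restrictScalars K, h.restrictScalars K) := rfl

theorem resBr_H2π (x : cocycles₂ (unitsRep K M)) :
    resBr K E M (H2π _ x) = H2π _ (resCocycles₂ K E M x) :=
  H2π_comp_map_apply _ _ x

/-- `Eˣ → Mˣ` as a `ℤ`-linear map between the additive versions. -/
def unitsMapLin : Additive Eˣ →ₗ[ℤ] Additive Mˣ :=
  (MonoidHom.toAdditive (Units.map (algebraMap E M : E →* M))).toIntLinearMap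

theorem unitsMapLin_apply (a : Additive Eˣ) :
    unitsMapLin E M a = Additive.ofMul (Units.map (algebraMap E M : E →* M) a.toMul) := rfl

theorem unitsMapLin_injective : Function.Injective (unitsMapLin E M) := by
  intro a b h
  have h1 : Units.map (algebraMap E M : E →* M) a.toMul = Units.map (algebraMap E M : E →* M) b.toMul :=
    congrArg Additive.toMul h
  have h2 := Units.map_injective (f := (algebraMap E M : E →* M)) (algebraMap E M).injective h1
  exact congrArg Additive.ofMul h2

variable [Normal K E]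

/-- The morphism of representations underlying inflation `Br K E ⟶ Br K M`: the inclusion
`Eˣ → Mˣ`, equivariant along `Gal(M/K) → Gal(E/K)`. -/
def infRepHom :
    res (AlgEquiv.restrictNormalHom E : (M ≃ₐ[K] M) →* (E ≃ₐ[K] E)) (unitsRep K E) ⟶
      unitsRep K M :=
  ofHom ⟨unitsMapLin E M, fun g => by
    ext a
    exact AlgEquiv.restrictNormal_commutes g E _⟩

/-- Inflation `Br(E/K) ⟶ Br(M/K)`. -/
def infBr : Br K E ⟶ Br K M :=
  groupCohomology.map (AlgEquiv.restrictNormalHom E) (infRepHom K E M) 2


/-- Cocycle-level inflation. -/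
abbrev infCocycles₂ : ModuleCat.of ℤ (cocycles₂ (unitsRep K E)) ⟶ ModuleCat.of ℤ (cocycles₂ (unitsRep K M)) :=
  mapCocycles₂ (AlgEquiv.restrictNormalHom E) (infRepHom K E M)

theorem infCocycles₂_apply (y : cocycles₂ (unitsRep K E)) (g h : M ≃ₐ[K] M) :
    (infCocycles₂ K E M y) (g, h) =
      unitsMapLin E M (y (g.restrictNormal E, h.restrictNormal E)) := rfl

theorem infBr_H2π (y : cocycles₂ (unitsRep K E)) :
    infBr K E M (H2π _ y) = H2π _ (infCocycles₂ K E M y) :=
  H2π_comp_map_apply _ _ y


/-! ### Functoriality in towers -/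

section Towers

variable (F : Type) [Field F] [Algebra K F] [Algebra E F] [Algebra F M]
  [IsScalarTower K E F] [IsScalarTower K F M] [IsScalarTower E F M]

omit [Normal K E] in
/-- Restriction is transitive: `Br(M/K) → Br(M/E) → Br(M/F)`. -/
theorem resBr_comp : resBr K E M ≫ resBr E F M = resBr K F M := by
  unfold resBr
  rw [← groupCohomology.map_comp]
  exact groupCohomology.map_congr (by ext; rfl) rfl 2

omit [Normal K E] in
theorem resBr_resBr (x : Br K M) : resBr E F M (resBr K E M x) = resBr K F M x := by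
  rw [← resBr_comp K E M F]
  rfl

/-- Inflation is transitive: `Br(E/K) → Br(F/K) → Br(M/K)`. -/
theorem infBr_comp [Normal K F] : infBr K E F ≫ infBr K F M = infBr K E M := by
  unfold infBr
  rw [← groupCohomology.map_comp]
  refine groupCohomology.map_congr
    (IsScalarTower.AlgEquiv.restrictNormalHom_comp K E F M).symm ?_ 2
  ext a
  refine Additive.toMul.injective (Units.ext ?_)
  exact (IsScalarTower.algebraMap_apply E F M _).symm

theorem infBr_infBr [Normal K F] (y : Br K E) : infBr K F M (infBr K E F y) = infBr K E M y := by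
  rw [← infBr_comp K E M F]
  rfl

end Towers

end Fermat.Agent.CFT.GaloisDict
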