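/-
PROJECT C, Layer B glue (helper21): the Galois dictionary for an INFINITE Galois extension `Ω/K`.

`G = Gal(Ω/K)`, `C = Ωˣ` (`unitsRep K Ω`).  For an intermediate field `E`, normal over `K`, and the
subgroup `U = E.fixingSubgroup` (given as `h : E.fixingSubgroup = U`, so that `U` may be a variable):

* `layerQuotEquiv : G ⧸ U ≃* Gal(E/K)`;
* `layerLin : Eˣ ≃ (Ωˣ)^U` (infinite Galois correspondence);
* `layerIso n : Hⁿ(Gal(E/K), Eˣ) ≅ Hⁿ(G ⧸ U, C^U)`, `layerCocycle`, with
  `layerIso_hom_H2π`;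
* `isClassModule_layer` : class modules transport to the layers;
* `inflFin_layerIso` : for `E ≤ E'` the inflation `LC.inflFin` between the layers is the
  field-level inflation `infBr K E E'`;
* `relIndex_fixingSubgroup` : `[U : W] = [E' : E]`.
-/
import Mathlib
import Fermat.Agent.CFT.A5.ClassModuleTransport
import Fermat.Agent.CFT.GaloisDict.Basic
import Fermat.Agent.CFT.LC.Inflation
import Fermat.Agent.CFT.A7.ClassFormation

set_option autoImplicit false

noncomputable section

namespace Fermat.Agent.CFT.GaloisDict.Infinite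

open groupCohomology CategoryTheory Rep Fermat.Agent.CFT.GaloisDict Fermat.Agent.CFT.A5.Tate
  Fermat.Agent.CFT.A5.Transport Fermat.Agent.CFT.LC

variable {K Ω : Type} [Field K] [Field Ω] [Algebra K Ω]

section Layer

variable (E : IntermediateField K Ω) [Normal K E] (U : Subgroup (Ω ≃ₐ[K] Ω)) [U.Normal]
  (h : E.fixingSubgroup = U)

/-- `Gal(Ω/K) ⧸ U ≃* Gal(E/K)` for `U = E.fixingSubgroup`. -/
def layerQuotEquiv [Normal K Ω] : (Ω ≃ₐ[K] Ω) ⧸ U ≃* (E ≃ₐ[K] E) :=
  QuotientGroup.liftEquiv U (φ := AlgEquiv.restrictNormalHom E)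
    (AlgEquiv.restrictNormalHom_surjective Ω)
    (h.symm.trans (IntermediateField.restrictNormalHom_ker E).symm)

theorem layerQuotEquiv_mk [Normal K Ω] (σ : Ω ≃ₐ[K] Ω) :
    layerQuotEquiv E U h (QuotientGroup.mk σ) = AlgEquiv.restrictNormalHom E σ := rfl

theorem layerQuotEquiv_symm_restrictNormalHom [Normal K Ω] (σ : Ω ≃ₐ[K] Ω) :
    (layerQuotEquiv E U h).symm (AlgEquiv.restrictNormalHom E σ) = QuotientGroup.mk σ := by
  rw [← layerQuotEquiv_mk E U h, MulEquiv.symm_apply_apply]

include h in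
/-- The image of `Eˣ` in `Ωˣ` is the module of `U`-invariants (infinite Galois correspondence). -/
theorem range_unitsMapLin_layer [IsGalois K Ω] :
    LinearMap.range (unitsMapLin ↥E Ω) =
      Representation.invariants ((unitsRep K Ω).ρ.comp U.subtype) := by
  ext a
  constructor
  · rintro ⟨b, rfl⟩
    intro σ
    apply congrArg Additive.ofMul
    apply Units.ext
    change (σ : Ω ≃ₐ[K] Ω) (algebraMap ↥E Ω (Additive.toMul b : (↥E)ˣ)) = _
    have hσ : (σ : Ω ≃ₐ[K] Ω) ∈ E.fixingSubgroup := h ▸ σ.2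
    exact (IntermediateField.mem_fixingSubgroup_iff E _).mp hσ _
      ((Additive.toMul b : (↥E)ˣ) : ↥E).2
  · intro ha
    have ha' : ∀ σ : U, ((unitsRep K Ω).ρ.comp U.subtype) σ a = a := ha
    have hmem : ((Additive.toMul a : Ωˣ) : Ω) ∈ E := by
      rw [← InfiniteGalois.fixedField_fixingSubgroup E, IntermediateField.mem_fixedField_iff]
      intro σ hσ
      have := congrArg (fun b : Additive Ωˣ => ((Additive.toMul b : Ωˣ) : Ω)) (ha' ⟨σ, h ▸ hσ⟩)
      exact this
    have hx0 : (⟨_, hmem⟩ : ↥E) ≠ 0 := by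
      intro h0
      have := congrArg (fun x : ↥E => (x : Ω)) h0
      exact (Additive.toMul a : Ωˣ).ne_zero this
    exact ⟨Additive.ofMul (Units.mk0 ⟨_, hmem⟩ hx0), congrArg Additive.ofMul (Units.ext rfl)⟩

/-- `Eˣ ≃ (Ωˣ)^U` as `ℤ`-modules. -/
def layerLin [IsGalois K Ω] :
    Additive (↥E)ˣ ≃ₗ[ℤ] Representation.invariants ((unitsRep K Ω).ρ.comp U.subtype) :=
  (LinearEquiv.ofInjective (unitsMapLin ↥E Ω) (unitsMapLin_injective ↥E Ω)).trans
    (LinearEquiv.ofEq _ _ (range_unitsMapLin_layer E U h))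

theorem coe_layerLin [IsGalois K Ω] (a : Additive (↥E)ˣ) :
    (layerLin E U h a).1 = unitsMapLin ↥E Ω a := rfl

theorem layer_compat [IsGalois K Ω] (g : E ≃ₐ[K] E) :
    (layerLin E U h).toLinearMap ∘ₗ (unitsRep K ↥E).ρ g =
      ((unitsRep K Ω).quotientToInvariants U).ρ ((layerQuotEquiv E U h).symm g) ∘ₗ
        (layerLin E U h).toLinearMap := by
  obtain ⟨σ, rfl⟩ := AlgEquiv.restrictNormalHom_surjective (K₁ := ↥E) Ω g
  rw [layerQuotEquiv_symm_restrictNormalHom]
  ext a
  refine Additive.toMul.injective (Units.ext ?_)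
  exact AlgEquiv.restrictNormal_commutes σ E _

/-- The dictionary isomorphism `Hⁿ(Gal(E/K), Eˣ) ≅ Hⁿ(G ⧸ U, (Ωˣ)^U)`. -/
def layerIso [IsGalois K Ω] (n : ℕ) :
    groupCohomology (unitsRep K ↥E) n ≅
      groupCohomology ((unitsRep K Ω).quotientToInvariants U) n :=
  groupCohomology.mapIso (A := (unitsRep K Ω).quotientToInvariants U) (B := unitsRep K ↥E)
    (layerQuotEquiv E U h).symm (layerLin E U h) (layer_compat E U h) n

/-- The transported cocycle on the layer. -/
def layerCocycle [IsGalois K Ω] (ψ : cocycles₂ (unitsRep K ↥E)) :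
    cocycles₂ ((unitsRep K Ω).quotientToInvariants U) :=
  transCocycle (A := (unitsRep K Ω).quotientToInvariants U) (B := unitsRep K ↥E)
    (layerQuotEquiv E U h).symm (layerLin E U h) (layer_compat E U h) ψ

theorem layerIso_hom_H2π [IsGalois K Ω] (ψ : cocycles₂ (unitsRep K ↥E)) :
    (layerIso E U h 2).hom (H2π _ ψ) = H2π _ (layerCocycle E U h ψ) :=
  mapIso_hom_H2π _ _ _ ψ

/-- **Field-level class modules give class modules on the layers.** -/
theorem isClassModule_layer [IsGalois K Ω] {ψ : cocycles₂ (unitsRep K ↥E)}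
    (hψ : IsClassModule (unitsRep K ↥E) ψ) :
    IsClassModule ((unitsRep K Ω).quotientToInvariants U) (layerCocycle E U h ψ) :=
  isClassModule_transport _ _ _ hψ

include h in
theorem card_layer [IsGalois K Ω] [FiniteDimensional K E] :
    Nat.card ((Ω ≃ₐ[K] Ω) ⧸ U) = Module.finrank K E := by
  haveI : IsGalois K E := ⟨⟩
  rw [Nat.card_congr (layerQuotEquiv E U h).toEquiv, IsGalois.card_aut_eq_finrank]

end Layer

/-! ### Inflation between layers -/

section Inflation

variable {E E' : IntermediateField K Ω}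

/-- The algebra structure `E → E'` for intermediate fields `E ≤ E'`. -/
abbrev inclAlgebra (hle : E ≤ E') : Algebra ↥E ↥E' :=
  (IntermediateField.inclusion hle).toRingHom.toAlgebra

theorem isScalarTower_incl (hle : E ≤ E') :
    letI := inclAlgebra hle
    IsScalarTower K ↥E ↥E' :=
  letI := inclAlgebra hle
  IsScalarTower.of_algebraMap_eq fun x => ((IntermediateField.inclusion hle).commutes x).symm

theorem isScalarTower_incl_top (hle : E ≤ E') :
    letI := inclAlgebra hle
    IsScalarTower ↥E ↥E' Ω :=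
  letI := inclAlgebra hle
  IsScalarTower.of_algebraMap_eq fun _ => rfl

/-- Field-level inflation `Br(E/K) ⟶ Br(E'/K)` for intermediate fields `E ≤ E'` of `Ω/K`. -/
def infBrIncl (hle : E ≤ E') [Normal K E] : Br K ↥E ⟶ Br K ↥E' :=
  letI := inclAlgebra hle
  haveI := isScalarTower_incl hle
  infBr K ↥E ↥E'

variable [IsGalois K Ω] [Normal K E] [Normal K E'] (hle : E ≤ E')
  (U W : Subgroup (Ω ≃ₐ[K] Ω)) [U.Normal] [W.Normal]
  (hU : E.fixingSubgroup = U) (hW : E'.fixingSubgroup = W) (hWU : W ≤ U)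

/-- **`LC.inflFin` between the layers is field-level inflation.** -/
theorem layerIso_hom_comp_inflFin (n : ℕ) :
    (layerIso E U hU n).hom ≫ inflFin (unitsRep K Ω) U W hWU n =
      (letI := inclAlgebra hle
       haveI := isScalarTower_incl hle
       groupCohomology.map (AlgEquiv.restrictNormalHom ↥E) (infRepHom K ↥E ↥E') n) ≫
        (layerIso E' W hW n).hom := by
  letI := inclAlgebra hle
  haveI := isScalarTower_incl hle
  haveI := isScalarTower_incl_top hle
  unfold layerIso inflFin
  simp only [groupCohomology.mapIso_hom]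
  rw [← groupCohomology.map_comp, ← groupCohomology.map_comp]
  refine groupCohomology.map_congr ?_ ?_ n
  · apply QuotientGroup.monoidHom_ext
    ext σ : 1
    change AlgEquiv.restrictNormalHom ↥E σ =
      AlgEquiv.restrictNormalHom ↥E (AlgEquiv.restrictNormalHom ↥E' σ)
    rw [← MonoidHom.comp_apply, IsScalarTower.AlgEquiv.restrictNormalHom_comp K ↥E ↥E' Ω]
  · ext a
    rfl

theorem layerIso_hom_inflFin_two (x : Br K ↥E) :
    (inflFin (unitsRep K Ω) U W hWU 2).hom ((layerIso E U hU 2).hom x) =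
      (layerIso E' W hW 2).hom (infBrIncl hle x) := by
  have := congr($(layerIso_hom_comp_inflFin hle U W hU hW hWU 2) x)
  rw [ModuleCat.comp_apply, ModuleCat.comp_apply] at this
  exact this

include hle hU hW hWU in
/-- `[U : W] = [E' : E]`. -/
theorem relIndex_layer [FiniteDimensional K E'] :
    W.relIndex U = (letI := inclAlgebra hle; Module.finrank ↥E ↥E') := by
  letI := inclAlgebra hle
  haveI := isScalarTower_incl hle
  haveI : FiniteDimensional K E := by
    exact FiniteDimensional.left K ↥E ↥E'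
  have h1 := Fermat.Agent.CFT.A7.ClassFormation.card_quot_mul U W hWU
  rw [card_layer E U hU, card_layer E' W hW, ← Module.finrank_mul_finrank K ↥E ↥E', mul_comm] at h1
  exact (Nat.eq_of_mul_eq_mul_right Module.finrank_pos h1).symm

end Inflation

end Fermat.Agent.CFT.GaloisDict.Infinite
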