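/-
PROJECT C, Layer B (helper21): the class-module axioms (`A5.Tate.IsClassModule`) for the
representation `Mˣ` of `Gal(M/K)`, from purely field-theoretic input:

for every intermediate field `E`, `|Br(M/E)| = [M:E]` and the restriction of the class of `φ` to
`Br(M/E)` has order `[M:E]`.

The passage from subgroups `H ≤ Gal(M/K)` to intermediate fields is the Galois correspondence
(`E = fixedField H`, `fixSub K E M = H`) together with the dictionary `resDictIso`.
-/
import Mathlib
import Fermat.Agent.CFT.A5.Tate
import Fermat.Agent.CFT.GaloisDict.InfRes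

set_option autoImplicit false

noncomputable section

namespace Fermat.Agent.CFT.GaloisDict

open groupCohomology CategoryTheory Rep Fermat.Agent.CFT.InfRes2 Fermat.Agent.CFT.A5.Tate
  Fermat.Agent.CFT.A5.SplitRes

/-- In a finite abelian group of order `n`, an element of order `n` generates, and its annihilator
is `nℤ`. -/
theorem gen_of_addOrderOf_eq_card {X : Type*} [AddCommGroup X] (g : X) (n : ℕ) (hn : 0 < n)
    (hcard : Nat.card X = n) (hord : addOrderOf g = n) :
    (∀ y : X, ∃ r : ℤ, y = r • g) ∧ (∀ r : ℤ, r • g = 0 → (n : ℤ) ∣ r) := by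
  haveI : Finite X := Nat.finite_of_card_ne_zero (by omega)
  constructor
  · have htop : AddSubgroup.zmultiples g = ⊤ := by
      apply AddSubgroup.eq_top_of_card_eq
      rw [Nat.card_zmultiples, hord, hcard]
    intro y
    have hy : y ∈ AddSubgroup.zmultiples g := by rw [htop]; trivial
    obtain ⟨r, hr⟩ := AddSubgroup.mem_zmultiples_iff.mp hy
    exact ⟨r, hr.symm⟩
  · intro r hr
    rw [← hord]
    exact addOrderOf_dvd_iff_zsmul_eq_zero.mpr hr

variable (K M : Type) [Field K] [Field M] [Algebra K M]

theorem fixSub_eq_fixingSubgroup (E : IntermediateField K M) :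
    fixSub K E M = E.fixingSubgroup := by
  ext σ
  rw [mem_fixSub_iff, IntermediateField.mem_fixingSubgroup_iff]
  constructor
  · intro h x hx
    exact h ⟨x, hx⟩
  · intro h x
    exact h x x.2

theorem fixSub_fixedField [FiniteDimensional K M] (H : Subgroup (M ≃ₐ[K] M)) :
    fixSub K (IntermediateField.fixedField H) M = H := by
  rw [fixSub_eq_fixingSubgroup, IntermediateField.fixingSubgroup_fixedField]


variable {K M}

/-- The abstract restricted cocycle `resPhi` is the cocycle-level restriction of `InfRes2`. -/
theorem resCocycles₂_eq_resPhi (S : Subgroup (M ≃ₐ[K] M)) (φ : cocycles₂ (unitsRep K M)) :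
    (InfRes2.resCocycles₂ (unitsRep K M) S).hom φ = resPhi (unitsRep K M) φ S.subtype := by
  apply Subtype.ext
  funext p
  rfl

/-- The image of the class of `resPhi` under the dictionary `H²(fixSub, Mˣ) ≅ Br(M/E)` is the
field-level restriction of the class of `φ`. -/
theorem resDictIso_inv_H2π_resPhi (E : Type) [Field E] [Algebra K E] [Algebra E M]
    [IsScalarTower K E M] (φ : cocycles₂ (unitsRep K M)) :
    (resDictIso K E M 2).inv
        (H2π (res (fixSub K E M).subtype (unitsRep K M))
          (resPhi (unitsRep K M) φ (fixSub K E M).subtype)) =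
      resBr K E M (H2π (unitsRep K M) φ) := by
  rw [← res₂_comp_resDictIso_inv, ← resCocycles₂_eq_resPhi, ← res₂_H2π]
  rfl


theorem card_fixSub (E : Type) [Field E] [Algebra K E] [Algebra E M] [IsScalarTower K E M]
    [FiniteDimensional E M] [IsGalois E M] :
    Nat.card (fixSub K E M) = Module.finrank E M := by
  rw [← Nat.card_congr (fixSubEquiv K E M).toEquiv, IsGalois.card_aut_eq_finrank]

/-- The class-module axioms at the subgroup `fixSub K E M = Gal(M/E)`. -/
theorem classModule_fixSub (E : Type) [Field E] [Algebra K E] [Algebra E M] [IsScalarTower K E M]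
    [FiniteDimensional E M] [IsGalois E M] (φ : cocycles₂ (unitsRep K M))
    (hcard : Nat.card (Br E M) = Module.finrank E M)
    (hord : addOrderOf (resBr K E M (H2π (unitsRep K M) φ)) = Module.finrank E M) :
    Limits.IsZero (groupCohomology (res (fixSub K E M).subtype (unitsRep K M)) 1) ∧
    (∀ y : groupCohomology (res (fixSub K E M).subtype (unitsRep K M)) 2, ∃ r : ℤ,
      y = r • H2π (res (fixSub K E M).subtype (unitsRep K M))
        (resPhi (unitsRep K M) φ (fixSub K E M).subtype)) ∧
    (∀ r : ℤ, r • H2π (res (fixSub K E M).subtype (unitsRep K M))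
        (resPhi (unitsRep K M) φ (fixSub K E M).subtype) = 0 →
      ((Nat.card (fixSub K E M) : ℕ) : ℤ) ∣ r) := by
  refine ⟨?_, ?_⟩
  · refine Limits.IsZero.of_iso ?_ (resDictIso K E M 1).symm
    haveI : Subsingleton (groupCohomology (unitsRep E M) 1) :=
      (inferInstance : Subsingleton (H1 (Rep.ofAlgebraAutOnUnits E M)))
    exact ModuleCat.isZero_of_subsingleton _
  · let e := (resDictIso K E M 2).symm.toLinearEquiv
    set g := H2π (res (fixSub K E M).subtype (unitsRep K M))
        (resPhi (unitsRep K M) φ (fixSub K E M).subtype) with hg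
    have heg : e g = resBr K E M (H2π (unitsRep K M) φ) := resDictIso_inv_H2π_resPhi E φ
    have hpos : 0 < Module.finrank E M := Module.finrank_pos
    have hcard' : Nat.card (groupCohomology (res (fixSub K E M).subtype (unitsRep K M)) 2) =
        Module.finrank E M := by
      rw [Nat.card_congr e.toEquiv]
      exact hcard
    have hord' : addOrderOf g = Module.finrank E M := by
      rw [← hord, ← heg]
      exact (AddEquiv.addOrderOf_eq e.toAddEquiv g).symm
    have := gen_of_addOrderOf_eq_card g _ hpos hcard' hord'
    rw [card_fixSub]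
    exact this


/-- The three class-module axioms at a subgroup `S`. -/
def ClassModuleAt (φ : cocycles₂ (unitsRep K M)) (S : Subgroup (M ≃ₐ[K] M)) : Prop :=
  Limits.IsZero (groupCohomology (res S.subtype (unitsRep K M)) 1) ∧
    (∀ y : groupCohomology (res S.subtype (unitsRep K M)) 2, ∃ r : ℤ,
      y = r • H2π (res S.subtype (unitsRep K M)) (resPhi (unitsRep K M) φ S.subtype)) ∧
    (∀ r : ℤ, r • H2π (res S.subtype (unitsRep K M)) (resPhi (unitsRep K M) φ S.subtype) = 0 →
      ((Nat.card S : ℕ) : ℤ) ∣ r)

/-- **Class-module axioms for `Mˣ` from field-theoretic input.**  If for every intermediate field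
`E` of the finite Galois extension `M/K` the group `Br(M/E)` has `[M:E]` elements and the
restriction of `[φ]` to it has order `[M:E]`, then `(Mˣ, φ)` is a class module for `Gal(M/K)`. -/
theorem isClassModule_unitsRep [FiniteDimensional K M] [IsGalois K M]
    (φ : cocycles₂ (unitsRep K M))
    (h : ∀ E : IntermediateField K M, Nat.card (Br ↥E M) = Module.finrank ↥E M ∧
      addOrderOf (resBr K ↥E M (H2π (unitsRep K M) φ)) = Module.finrank ↥E M) :
    IsClassModule (unitsRep K M) φ := by
  have key : ∀ H : Subgroup (M ≃ₐ[K] M), ClassModuleAt φ H := by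
    intro H
    have h1 : ClassModuleAt φ (fixSub K (IntermediateField.fixedField H) M) :=
      classModule_fixSub ↥(IntermediateField.fixedField H) φ (h _).1 (h _).2
    rwa [fixSub_fixedField] at h1
  refine ⟨fun H => (key H).1, fun H y => ?_, fun H r hr => ?_⟩
  · obtain ⟨r, hr⟩ := (key H).2.1 y
    exact ⟨r, hr.trans (int_smul_eq_zsmul _ r _).symm⟩
  · exact (key H).2.2 r ((int_smul_eq_zsmul _ r _).symm.trans hr)

/-! ### Producing the hypotheses from invariant maps -/

/-- **Order of the restricted class from invariant maps.**  If `invE : Br(M/E) → A` is injective,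
`invE ∘ res = [E:K] • invK` and `invK u` has order `[M:K]`, then `res u` has order `[M:E]`. -/
theorem addOrderOf_resBr_of_inv {A : Type*} [AddCommGroup A] (E : Type) [Field E] [Algebra K E]
    [Algebra E M] [IsScalarTower K E M] [FiniteDimensional K M]
    (invK : Br K M →+ A) (invE : Br E M →+ A) (hinj : Function.Injective invE)
    (hres : ∀ x, invE (resBr K E M x) = Module.finrank K E • invK x)
    (u : Br K M) (hu : addOrderOf (invK u) = Module.finrank K M) :
    addOrderOf (resBr K E M u) = Module.finrank E M := by
  haveI : FiniteDimensional K E := FiniteDimensional.left K E M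
  haveI : FiniteDimensional E M := FiniteDimensional.right K E M
  have hKE : 0 < Module.finrank K E := Module.finrank_pos
  rw [← addOrderOf_injective invE hinj, hres, addOrderOf_nsmul' _ hKE.ne', hu,
    ← Module.finrank_mul_finrank K E M, Nat.gcd_mul_right_left]
  exact Nat.mul_div_cancel_left _ hKE

/-- **The inflation rule (L-b) from invariant maps.**  If `invM : Br(M/K) → ℚ/ℤ` is injective,
compatible with inflation from `Br(E/K)`, and the fundamental classes have invariants `1/[E:K]`
and `1/[M:K]`, then `inf u_{E/K} = [M:E] • u_{M/K}`. -/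
theorem infBr_fundamental_of_inv (E : Type) [Field E] [Algebra K E] [Algebra E M]
    [IsScalarTower K E M] [FiniteDimensional K M] [Normal K E]
    (invE : Br K E →+ AddCircle (1 : ℚ)) (invM : Br K M →+ AddCircle (1 : ℚ))
    (hinj : Function.Injective invM)
    (hinf : ∀ x, invM (infBr K E M x) = invE x)
    (uE : Br K E) (uM : Br K M)
    (huE : invE uE = (((Module.finrank K E : ℚ)⁻¹ : ℚ) : AddCircle (1 : ℚ)))
    (huM : invM uM = (((Module.finrank K M : ℚ)⁻¹ : ℚ) : AddCircle (1 : ℚ))) :
    infBr K E M uE = Module.finrank E M • uM := by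
  haveI : FiniteDimensional K E := FiniteDimensional.left K E M
  haveI : FiniteDimensional E M := FiniteDimensional.right K E M
  apply hinj
  rw [hinf, huE, map_nsmul, huM, ← AddCircle.coe_nsmul]
  congr 1
  have h1 : (Module.finrank K E : ℚ) ≠ 0 := by
    exact_mod_cast (Module.finrank_pos (R := K) (M := E)).ne'
  have h2 : (Module.finrank E M : ℚ) ≠ 0 := by
    exact_mod_cast (Module.finrank_pos (R := E) (M := M)).ne'
  rw [← Module.finrank_mul_finrank K E M, nsmul_eq_mul]
  push_cast
  field_simp

/-- The class with invariant `1/n` has order `n` in `ℚ/ℤ`. -/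
theorem addOrderOf_coe_inv (n : ℕ) (hn : 0 < n) :
    addOrderOf ((((n : ℚ)⁻¹ : ℚ) : AddCircle (1 : ℚ))) = n := by
  have := AddCircle.addOrderOf_div_of_gcd_eq_one (p := (1 : ℚ)) (m := 1) hn (by simp)
  simpa using this

/-- **Class-module axioms for `Mˣ` from a family of invariant maps** (assembly of
`isClassModule_unitsRep`, `addOrderOf_resBr_of_inv`, `addOrderOf_coe_inv`). -/
theorem isClassModule_unitsRep_of_inv [FiniteDimensional K M] [IsGalois K M]
    (φ : cocycles₂ (unitsRep K M))
    (invK : Br K M →+ AddCircle (1 : ℚ))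
    (inv : ∀ E : IntermediateField K M, Br ↥E M →+ AddCircle (1 : ℚ))
    (hinj : ∀ E : IntermediateField K M, Function.Injective (inv E))
    (hcard : ∀ E : IntermediateField K M, Nat.card (Br ↥E M) = Module.finrank ↥E M)
    (hres : ∀ (E : IntermediateField K M) (x : Br K M),
      inv E (resBr K ↥E M x) = Module.finrank K ↥E • invK x)
    (hφ : invK (H2π (unitsRep K M) φ) =
      (((Module.finrank K M : ℚ)⁻¹ : ℚ) : AddCircle (1 : ℚ))) :
    IsClassModule (unitsRep K M) φ := by
  refine isClassModule_unitsRep φ fun E => ⟨hcard E, ?_⟩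
  refine addOrderOf_resBr_of_inv ↥E invK (inv E) (hinj E) (hres E) _ ?_
  rw [hφ]
  exact addOrderOf_coe_inv _ Module.finrank_pos

end Fermat.Agent.CFT.GaloisDict
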