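/-
PROJECT C, Layer B glue (helper21): FROM FIELD-LEVEL CLASS MODULES TO A CLASS FORMATION in the
level-constant model.

`Ω/K` a (possibly infinite) Galois extension, `G = Gal(Ω/K)`, `C = Ωˣ`.  A `FieldFormation K Ω` is a
family of fundamental `2`-cocycles `φ E` of `(Gal(E/K), Eˣ)`, `E/K` finite Galois inside `Ω`, such
that every `(Eˣ, φ E)` is a class module (`A5.Tate.IsClassModule`) and inflation multiplies
the fundamental classes by the degree.  For any family of levels `𝒰` of `G` consisting of fixing
subgroups of finite Galois subextensions, this gives `A7.ClassFormation 𝒰 (unitsRep K Ω)`.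
-/
import Mathlib
import Fermat.Agent.CFT.GaloisDict.Infinite

set_option autoImplicit false

noncomputable section

namespace Fermat.Agent.CFT.GaloisDict.Infinite

open groupCohomology CategoryTheory Rep Fermat.Agent.CFT.GaloisDict Fermat.Agent.CFT.A5.Tate
  Fermat.Agent.CFT.A5.Transport Fermat.Agent.CFT.LC Fermat.Agent.CFT.A7

/-- Field-level class formation data for the Galois extension `Ω/K`. -/
structure FieldFormation (K Ω : Type) [Field K] [Field Ω] [Algebra K Ω] where
  /-- the fundamental cocycle of `E/K` -/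
  φ : ∀ (E : IntermediateField K Ω) [FiniteDimensional K E] [Normal K E],
    cocycles₂ (unitsRep K ↥E)
  /-- `(Eˣ, φ E)` is a class module for `Gal(E/K)` -/
  isClassModule : ∀ (E : IntermediateField K Ω) [FiniteDimensional K E] [Normal K E],
    IsClassModule (unitsRep K ↥E) (φ E)
  /-- inflation multiplies the fundamental class by the degree -/
  infl : ∀ (E E' : IntermediateField K Ω) [FiniteDimensional K E] [Normal K E]
    [FiniteDimensional K E'] [Normal K E'] (hle : E ≤ E'),
    (infBrIncl hle).hom (H2π (unitsRep K ↥E) (φ E)) =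
      (letI := inclAlgebra hle; Module.finrank ↥E ↥E') • H2π (unitsRep K ↥E') (φ E')

variable {K Ω : Type} [Field K] [Field Ω] [Algebra K Ω] [IsGalois K Ω]

/-- A family of levels consisting of fixing subgroups of finite Galois subextensions. -/
def IsFieldLevels (𝒰 : Levels (Ω ≃ₐ[K] Ω)) : Prop :=
  ∀ U ∈ 𝒰.sets, ∃ E : IntermediateField K Ω,
    FiniteDimensional K E ∧ Normal K E ∧ E.fixingSubgroup = U

section Level

variable {𝒰 : Levels (Ω ≃ₐ[K] Ω)} (h𝒰 : IsFieldLevels 𝒰) (U : Subgroup (Ω ≃ₐ[K] Ω))
  (hU : U ∈ 𝒰.sets)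

include h𝒰 hU

theorem fixedField_eq_of_level {E : IntermediateField K Ω} (hE : E.fixingSubgroup = U) :
    IntermediateField.fixedField U = E := by
  rw [← hE, InfiniteGalois.fixedField_fixingSubgroup]

theorem finiteDimensional_fixedField_level :
    FiniteDimensional K (IntermediateField.fixedField U) := by
  obtain ⟨E, hfd, -, hE⟩ := h𝒰 U hU
  rw [fixedField_eq_of_level h𝒰 U hU hE]
  exact hfd

theorem normal_fixedField_level : Normal K (IntermediateField.fixedField U) := by
  obtain ⟨E, -, hn, hE⟩ := h𝒰 U hU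
  rw [fixedField_eq_of_level h𝒰 U hU hE]
  exact hn

theorem fixingSubgroup_fixedField_level :
    (IntermediateField.fixedField U).fixingSubgroup = U := by
  obtain ⟨E, -, -, hE⟩ := h𝒰 U hU
  rw [fixedField_eq_of_level h𝒰 U hU hE, hE]

end Level

/-- The fundamental cocycle of the layer `G ⧸ U`. -/
def FieldFormation.layerφ (F : FieldFormation K Ω) {𝒰 : Levels (Ω ≃ₐ[K] Ω)}
    (h𝒰 : IsFieldLevels 𝒰) (U : Subgroup (Ω ≃ₐ[K] Ω)) [U.Normal] (hU : U ∈ 𝒰.sets) :
    cocycles₂ ((unitsRep K Ω).quotientToInvariants U) :=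
  haveI := finiteDimensional_fixedField_level h𝒰 U hU
  haveI := normal_fixedField_level h𝒰 U hU
  layerCocycle (IntermediateField.fixedField U) U (fixingSubgroup_fixedField_level h𝒰 U hU)
    (F.φ (IntermediateField.fixedField U))

theorem FieldFormation.isClassModule_layerφ (F : FieldFormation K Ω)
    {𝒰 : Levels (Ω ≃ₐ[K] Ω)} (h𝒰 : IsFieldLevels 𝒰) (U : Subgroup (Ω ≃ₐ[K] Ω)) [U.Normal]
    (hU : U ∈ 𝒰.sets) :
    IsClassModule ((unitsRep K Ω).quotientToInvariants U) (F.layerφ h𝒰 U hU) := by
  haveI := finiteDimensional_fixedField_level h𝒰 U hU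
  haveI := normal_fixedField_level h𝒰 U hU
  exact isClassModule_layer _ U _ (F.isClassModule (IntermediateField.fixedField U))

theorem FieldFormation.layerClass_eq (F : FieldFormation K Ω)
    {𝒰 : Levels (Ω ≃ₐ[K] Ω)} (h𝒰 : IsFieldLevels 𝒰) (U : Subgroup (Ω ≃ₐ[K] Ω)) [U.Normal]
    (hU : U ∈ 𝒰.sets) :
    haveI := finiteDimensional_fixedField_level h𝒰 U hU
    haveI := normal_fixedField_level h𝒰 U hU
    layerClass (unitsRep K Ω) U (F.layerφ h𝒰 U hU) =
      (layerIso (IntermediateField.fixedField U) U
        (fixingSubgroup_fixedField_level h𝒰 U hU) 2).hom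
        (H2π _ (F.φ (IntermediateField.fixedField U))) := by
  haveI := finiteDimensional_fixedField_level h𝒰 U hU
  haveI := normal_fixedField_level h𝒰 U hU
  exact (layerIso_hom_H2π _ U _ _).symm

/-- **The class formation of `(Gal(Ω/K), Ωˣ)` in the level-constant model**, from field-level
data. -/
def FieldFormation.classFormation (F : FieldFormation K Ω) {𝒰 : Levels (Ω ≃ₐ[K] Ω)}
    (h𝒰 : IsFieldLevels 𝒰) : ClassFormation 𝒰 (unitsRep K Ω) where
  finiteIndex U hU := by
    haveI := 𝒰.normal U hU
    haveI := finiteDimensional_fixedField_level h𝒰 U hU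
    haveI := normal_fixedField_level h𝒰 U hU
    have h1 := card_layer _ U (fixingSubgroup_fixedField_level h𝒰 U hU)
    refine ⟨?_⟩
    rw [Subgroup.index, h1]
    exact (Module.finrank_pos (R := K) (M := ↥(IntermediateField.fixedField U))).ne'
  φ U _ hU := F.layerφ h𝒰 U hU
  isClassModule U _ hU := F.isClassModule_layerφ h𝒰 U hU
  h1 U _ hU := (isClassModule_top (F.isClassModule_layerφ h𝒰 U hU)).1
  hgen U _ hU := (isClassModule_top (F.isClassModule_layerφ h𝒰 U hU)).2.1
  hord U _ hU := (isClassModule_top (F.isClassModule_layerφ h𝒰 U hU)).2.2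
  infl_φ U W _ _ hU hW hWU := by
    haveI := finiteDimensional_fixedField_level h𝒰 U hU
    haveI := normal_fixedField_level h𝒰 U hU
    haveI := finiteDimensional_fixedField_level h𝒰 W hW
    haveI := normal_fixedField_level h𝒰 W hW
    have hle : IntermediateField.fixedField U ≤ IntermediateField.fixedField W :=
      IntermediateField.fixedField_antitone hWU
    rw [F.layerClass_eq h𝒰 U hU, F.layerClass_eq h𝒰 W hW,
      layerIso_hom_inflFin_two hle U W _ (fixingSubgroup_fixedField_level h𝒰 W hW) hWU,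
      F.infl _ _ hle, map_nsmul,
      relIndex_layer hle U W (fixingSubgroup_fixedField_level h𝒰 U hU)
        (fixingSubgroup_fixedField_level h𝒰 W hW) hWU, Nat.cast_smul_eq_nsmul]

end Fermat.Agent.CFT.GaloisDict.Infinite
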