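/-
PROJECT C, Layer B glue (helper21): the inflation-restriction sequence
`0 → Br(E/K) → Br(M/K) → Br(M/E)` for a tower of fields `K ⊆ E ⊆ M`, `M/K` finite Galois,
`E/K` normal, deduced from the abstract degree-2 inflation-restriction sequence (`CFT/InfRes2`)
through the Galois dictionary `Gal(M/K)/Gal(M/E) = Gal(E/K)`, `(Mˣ)^{Gal(M/E)} = Eˣ`.
-/
import Mathlib
import Fermat.Agent.CFT.InfRes2
import Fermat.Agent.CFT.GaloisDict.Basic

set_option autoImplicit false

noncomputable section

namespace Fermat.Agent.CFT.GaloisDict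

open groupCohomology CategoryTheory Rep Fermat.Agent.CFT.InfRes2

variable (K E M : Type) [Field K] [Field E] [Field M] [Algebra K E] [Algebra E M] [Algebra K M]
  [IsScalarTower K E M]

/-- The subgroup `Gal(M/E)` of `Gal(M/K)`: automorphisms fixing the image of `E`. -/
def fixSub : Subgroup (M ≃ₐ[K] M) :=
  (AlgEquiv.restrictScalarsHom K : (M ≃ₐ[E] M) →* (M ≃ₐ[K] M)).range

theorem mem_fixSub_iff (σ : M ≃ₐ[K] M) :
    σ ∈ fixSub K E M ↔ ∀ x : E, σ (algebraMap E M x) = algebraMap E M x := by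
  constructor
  · rintro ⟨τ, rfl⟩ x
    exact τ.commutes x
  · intro h
    exact ⟨{ σ.toRingEquiv with commutes' := h }, by ext; rfl⟩

/-- `Gal(M/E) ≃* fixSub K E M`. -/
def fixSubEquiv : (M ≃ₐ[E] M) ≃* fixSub K E M :=
  MonoidHom.ofInjective (AlgEquiv.restrictScalarsHom_injective K)

theorem coe_fixSubEquiv_apply (τ : M ≃ₐ[E] M) (x : M) :
    ((fixSubEquiv K E M τ : fixSub K E M) : M ≃ₐ[K] M) x = τ x := rfl

theorem fixSubEquiv_symm_apply (σ : fixSub K E M) (x : M) :
    (fixSubEquiv K E M).symm σ x = (σ : M ≃ₐ[K] M) x := by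
  obtain ⟨τ, rfl⟩ := (fixSubEquiv K E M).surjective σ
  rw [MulEquiv.symm_apply_apply]
  rfl

theorem fixSub_eq_ker [Normal K E] :
    fixSub K E M = (AlgEquiv.restrictNormalHom E : (M ≃ₐ[K] M) →* (E ≃ₐ[K] E)).ker := by
  ext σ
  rw [mem_fixSub_iff, MonoidHom.mem_ker]
  constructor
  · intro h
    ext x
    apply (algebraMap E M).injective
    rw [AlgEquiv.restrictNormalHom, MonoidHom.mk'_apply, AlgEquiv.restrictNormal_commutes, h]
    rfl
  · intro h x
    rw [← AlgEquiv.restrictNormal_commutes σ E x]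
    have : σ.restrictNormal E = 1 := h
    rw [this]
    rfl

instance normal_fixSub [Normal K E] : (fixSub K E M).Normal := by
  rw [fixSub_eq_ker]
  infer_instance


/-- **Hilbert 90** for `M/E`, in the elementwise shape used by `CFT/InfRes2`. -/
theorem h1Vanishes_fixSub [FiniteDimensional E M] :
    H1Vanishes (unitsRep K M) (fixSub K E M) := by
  intro c hc
  let c' : (M ≃ₐ[E] M) → Mˣ := fun τ => Additive.toMul (c (fixSubEquiv K E M τ) : Additive Mˣ)
  have hc' : groupCohomology.IsMulCocycle₁ c' := by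
    intro g h
    have h1 := hc (fixSubEquiv K E M g) (fixSubEquiv K E M h)
    rw [← map_mul] at h1
    exact congrArg (fun a : Additive Mˣ => Additive.toMul a) h1
  obtain ⟨β, hβ⟩ := groupCohomology.isMulCoboundary₁_of_isMulCocycle₁_of_aut_to_units c' hc'
  refine ⟨Additive.ofMul β, fun m => ?_⟩
  have h3 := hβ ((fixSubEquiv K E M).symm m)
  have h4 : (fixSubEquiv K E M).symm m • β = (m : M ≃ₐ[K] M) • β :=
    Units.ext (fixSubEquiv_symm_apply K E M m _)
  have h5 : c' ((fixSubEquiv K E M).symm m) = Additive.toMul (c m : Additive Mˣ) := by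
    simp only [c', MulEquiv.apply_symm_apply]
    rfl
  rw [h4, h5] at h3
  have h6 : (c m : Additive Mˣ) = Additive.ofMul ((m : M ≃ₐ[K] M) • β / β) := by
    rw [h3]
    rfl
  exact h6


/-! ### (D1) `H^n(fixSub, Mˣ) ≅ H^n(Gal(M/E), Mˣ)` -/

/-- The dictionary isomorphism `H^n(Gal(M/E), Mˣ) ≅ H^n(fixSub K E M, Mˣ)`. -/
def resDictIso (n : ℕ) :
    groupCohomology (unitsRep E M) n ≅
      groupCohomology (res (fixSub K E M).subtype (unitsRep K M)) n :=
  groupCohomology.mapIso (A := res (fixSub K E M).subtype (unitsRep K M)) (B := unitsRep E M)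
    (fixSubEquiv K E M) (LinearEquiv.refl ℤ (Additive Mˣ)) (fun _ => rfl) n

theorem subtype_comp_fixSubEquiv :
    (fixSub K E M).subtype.comp (fixSubEquiv K E M : (M ≃ₐ[E] M) →* fixSub K E M) =
      (AlgEquiv.restrictScalarsHom K : (M ≃ₐ[E] M) →* (M ≃ₐ[K] M)) := rfl

/-- Field-level restriction is abstract restriction to `fixSub` followed by the dictionary. -/
theorem res₂_comp_resDictIso_inv :
    res₂ (unitsRep K M) (fixSub K E M) ≫ (resDictIso K E M 2).inv = resBr K E M := by
  unfold resBr resDictIso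
  simp only [groupCohomology.mapIso_inv]
  rw [← groupCohomology.map_comp]
  exact groupCohomology.map_congr (subtype_comp_fixSubEquiv K E M) rfl 2


/-! ### (D2) `H^n(Gal(M/K)/fixSub, (Mˣ)^fixSub) ≅ H^n(Gal(E/K), Eˣ)` -/

section Normal

variable [Normal K E] [FiniteDimensional K M] [IsGalois K M]

theorem restrictNormalHom_surj :
    Function.Surjective (AlgEquiv.restrictNormalHom E : (M ≃ₐ[K] M) →* (E ≃ₐ[K] E)) :=
  AlgEquiv.restrictNormalHom_surjective M

/-- `Gal(M/K) ⧸ Gal(M/E) ≃* Gal(E/K)`. -/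
def quotEquiv : (M ≃ₐ[K] M) ⧸ fixSub K E M ≃* (E ≃ₐ[K] E) :=
  QuotientGroup.liftEquiv (fixSub K E M) (restrictNormalHom_surj K E M) (fixSub_eq_ker K E M)

theorem quotEquiv_mk (σ : M ≃ₐ[K] M) :
    quotEquiv K E M (QuotientGroup.mk σ) = AlgEquiv.restrictNormalHom E σ := rfl

theorem quotEquiv_symm_restrictNormalHom (σ : M ≃ₐ[K] M) :
    (quotEquiv K E M).symm (AlgEquiv.restrictNormalHom E σ) = QuotientGroup.mk σ := by
  rw [← quotEquiv_mk, MulEquiv.symm_apply_apply]

/-- A unit of `M` fixed by `Gal(M/E)` comes from `E`. -/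
theorem exists_unit_of_invariant (u : Mˣ)
    (hu : ∀ σ ∈ fixSub K E M, σ (u : M) = u) :
    ∃ v : Eˣ, Units.map (algebraMap E M : E →* M) v = u := by
  haveI : IsGalois E M := IsGalois.tower_top_of_isGalois K E M
  haveI : FiniteDimensional E M := FiniteDimensional.right K E M
  have hmem : (u : M) ∈ Set.range (algebraMap E M) := by
    rw [IsGalois.mem_range_algebraMap_iff_fixed]
    intro τ
    exact hu _ ⟨τ, rfl⟩
  obtain ⟨x, hx⟩ := hmem
  have hx0 : x ≠ 0 := by
    rintro rfl
    rw [map_zero] at hx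
    exact u.ne_zero hx.symm
  exact ⟨Units.mk0 x hx0, Units.ext hx⟩

theorem range_unitsMapLin :
    LinearMap.range (unitsMapLin E M) =
      Representation.invariants ((unitsRep K M).ρ.comp (fixSub K E M).subtype) := by
  ext a
  constructor
  · rintro ⟨b, rfl⟩
    intro σ
    apply congrArg Additive.ofMul
    apply Units.ext
    change (σ : M ≃ₐ[K] M) (algebraMap E M (Additive.toMul b : Eˣ)) = _
    exact (mem_fixSub_iff K E M σ).mp σ.2 _
  · intro h
    have h' : ∀ σ : fixSub K E M,
        ((unitsRep K M).ρ.comp (fixSub K E M).subtype) σ a = a := h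
    obtain ⟨v, hv⟩ := exists_unit_of_invariant K E M (Additive.toMul a) (fun σ hσ => by
      have := congrArg (fun b : Additive Mˣ => ((Additive.toMul b : Mˣ) : M)) (h' ⟨σ, hσ⟩)
      exact this)
    exact ⟨Additive.ofMul v, congrArg Additive.ofMul hv⟩

/-- `Eˣ ≃ (Mˣ)^{Gal(M/E)}` as `ℤ`-modules. -/
def unitsInvEquiv :
    Additive Eˣ ≃ₗ[ℤ]
      Representation.invariants ((unitsRep K M).ρ.comp (fixSub K E M).subtype) :=
  (LinearEquiv.ofInjective (unitsMapLin E M) (unitsMapLin_injective E M)).trans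
    (LinearEquiv.ofEq _ _ (range_unitsMapLin K E M))

theorem coe_unitsInvEquiv (a : Additive Eˣ) :
    (unitsInvEquiv K E M a).1 = unitsMapLin E M a := rfl

/-- The dictionary isomorphism `H^n(Gal(E/K), Eˣ) ≅ H^n(Gal(M/K)/Gal(M/E), (Mˣ)^{Gal(M/E)})`. -/
def infDictIso (n : ℕ) :
    groupCohomology (unitsRep K E) n ≅
      groupCohomology ((unitsRep K M).quotientToInvariants (fixSub K E M)) n :=
  groupCohomology.mapIso (A := (unitsRep K M).quotientToInvariants (fixSub K E M))
    (B := unitsRep K E) (quotEquiv K E M).symm (unitsInvEquiv K E M) (fun g => by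
      obtain ⟨σ, rfl⟩ := restrictNormalHom_surj K E M g
      rw [quotEquiv_symm_restrictNormalHom]
      ext a
      refine Additive.toMul.injective (Units.ext ?_)
      exact AlgEquiv.restrictNormal_commutes σ E _) n


theorem quotEquiv_comp_mk' :
    ((quotEquiv K E M : (M ≃ₐ[K] M) ⧸ fixSub K E M →* (E ≃ₐ[K] E))).comp
        (QuotientGroup.mk' (fixSub K E M)) =
      (AlgEquiv.restrictNormalHom E : (M ≃ₐ[K] M) →* (E ≃ₐ[K] E)) := rfl

/-- Field-level inflation is the dictionary followed by abstract inflation. -/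
theorem infDictIso_hom_comp_inf₂ :
    (infDictIso K E M 2).hom ≫ inf₂ (unitsRep K M) (fixSub K E M) = infBr K E M := by
  unfold infBr infDictIso
  simp only [groupCohomology.mapIso_hom]
  rw [← groupCohomology.map_comp]
  exact groupCohomology.map_congr (quotEquiv_comp_mk' K E M) rfl 2

/-- **Inflation `Br(E/K) → Br(M/K)` is injective.** -/
theorem infBr_injective : Function.Injective (infBr K E M) := by
  haveI : FiniteDimensional E M := FiniteDimensional.right K E M
  rw [← infDictIso_hom_comp_inf₂]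
  have h1 : Function.Injective (inf₂ (unitsRep K M) (fixSub K E M)) :=
    inf₂_injective (h1Vanishes_fixSub K E M)
  have h2 : Function.Injective (infDictIso K E M 2).hom :=
    (ConcreteCategory.bijective_of_isIso (infDictIso K E M 2).hom).1
  intro x y hxy
  exact h2 (h1 (by simpa using hxy))

/-- **Exactness at `Br(M/K)`**: a class dies in `Br(M/E)` iff it is inflated from `Br(E/K)`. -/
theorem resBr_eq_zero_iff (x : Br K M) :
    resBr K E M x = 0 ↔ ∃ y : Br K E, infBr K E M y = x := by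
  haveI : FiniteDimensional E M := FiniteDimensional.right K E M
  rw [← res₂_comp_resDictIso_inv, ← infDictIso_hom_comp_inf₂]
  have h2 : Function.Injective (resDictIso K E M 2).inv :=
    (ConcreteCategory.bijective_of_isIso (resDictIso K E M 2).inv).1
  have h3 : Function.Surjective (infDictIso K E M 2).hom :=
    (ConcreteCategory.bijective_of_isIso (infDictIso K E M 2).hom).2
  constructor
  · intro h
    have h4 : res₂ (unitsRep K M) (fixSub K E M) x = 0 := by
      apply h2
      rw [map_zero]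
      simpa using h
    obtain ⟨z, hz⟩ := (res₂_eq_zero_iff (h1Vanishes_fixSub K E M) x).mp h4
    obtain ⟨y, rfl⟩ := h3 z
    exact ⟨y, by simpa using hz⟩
  · rintro ⟨y, rfl⟩
    have h4 : res₂ (unitsRep K M) (fixSub K E M)
        (inf₂ (unitsRep K M) (fixSub K E M) ((infDictIso K E M 2).hom y)) = 0 :=
      res₂_inf₂ _
    simp only [ModuleCat.hom_comp, LinearMap.comp_apply] at h4 ⊢
    rw [h4, map_zero]

theorem resBr_infBr (y : Br K E) : resBr K E M (infBr K E M y) = 0 :=
  (resBr_eq_zero_iff K E M _).mpr ⟨y, rfl⟩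


/-- `|Br(M/K)| = |Br(E/K)| * |im (Br(M/K) → Br(M/E))|`. -/
theorem card_Br_eq :
    Nat.card (Br K M) = Nat.card (Br K E) * Nat.card (resBr K E M).hom.toAddMonoidHom.range :=
  card_eq_of_exact (infBr K E M).hom.toAddMonoidHom (resBr K E M).hom.toAddMonoidHom
    (infBr_injective K E M) (resBr_eq_zero_iff K E M)

/-- `|Br(M/K)|` divides `|Br(E/K)| * |Br(M/E)|`. -/
theorem card_Br_dvd : Nat.card (Br K M) ∣ Nat.card (Br K E) * Nat.card (Br E M) := by
  rw [card_Br_eq K E M]
  exact mul_dvd_mul_left _ (AddSubgroup.card_addSubgroup_dvd_card _)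

theorem finite_Br [Finite (Br K E)] [Finite (Br E M)] : Finite (Br K M) := by
  apply Nat.finite_of_card_ne_zero
  rw [card_Br_eq K E M]
  exact Nat.mul_ne_zero Nat.card_pos.ne' Nat.card_pos.ne'

theorem card_Br_le [Finite (Br K E)] [Finite (Br E M)] :
    Nat.card (Br K M) ≤ Nat.card (Br K E) * Nat.card (Br E M) :=
  Nat.le_of_dvd (Nat.mul_pos Nat.card_pos Nat.card_pos) (card_Br_dvd K E M)

end Normal

end Fermat.Agent.CFT.GaloisDict
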