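/-
PROJECT C, Layer B glue (helper21): transport of "unramified layer" data (`UnramData`, from
`CFT/Local/UnramifiedBrauer`) along an isomorphism of groups and an equivariant linear
equivalence, and its two field-theoretic specialisations through the Galois dictionary:

* from `Gal(E/K)` acting on `Eˣ` to `Gal(M/K)/Gal(M/E)` acting on `(Mˣ)^{Gal(M/E)}`;
* from `Gal(M/L)` acting on `Mˣ` to the subgroup `fixSub K L M ≤ Gal(M/K)` acting on `Mˣ`.
-/
import Mathlib
import Fermat.Agent.CFT.Local.UnramifiedBrauer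
import Fermat.Agent.CFT.GaloisDict.InfRes

set_option autoImplicit false

noncomputable section

namespace Fermat.Agent.CFT.GaloisDict

open groupCohomology Finset Rep Fermat.Agent.CFT.Local.CyclicH2
  Fermat.Agent.CFT.Local.UnramifiedBrauer

section Generic

variable {G G' : Type} [Group G] [Group G'] {A : Rep.{0} ℤ G} {A' : Rep.{0} ℤ G'}

theorem nrm_transport (e : G ≃* G') (e' : A.V ≃ₗ[ℤ] A'.V)
    (he : ∀ (g : G) (a : A.V), e' (A.ρ g a) = A'.ρ (e g) (e' a)) (σ : G) (n : ℕ) (a : A.V) :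
    e' (nrm A σ n a) = nrm A' (e σ) n (e' a) := by
  unfold nrm
  rw [map_sum]
  refine Finset.sum_congr rfl (fun i _ => ?_)
  rw [he, map_pow]

/-- Transport of `UnramData` along a group isomorphism `e` and an `e`-equivariant linear
equivalence `e'`. -/
def transportUnramData {σ : G} {n : ℕ} (D : UnramData A σ n) (e : G ≃* G')
    (e' : A.V ≃ₗ[ℤ] A'.V)
    (he : ∀ (g : G) (a : A.V), e' (A.ρ g a) = A'.ρ (e g) (e' a)) :
    UnramData A' (e σ) n where
  hord := by rw [← D.hord]; exact MulEquiv.orderOf_eq e σ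
  hn := D.hn
  hgen g' := by
    obtain ⟨i, hi⟩ := D.hgen (e.symm g')
    exact ⟨i, by rw [← map_pow, hi, MulEquiv.apply_symm_apply]⟩
  ord := D.ord.comp (e'.symm : A'.V →+ A.V)
  ord_ρ g' a' := by
    have h := he (e.symm g') (e'.symm a')
    rw [MulEquiv.apply_symm_apply, LinearEquiv.apply_symm_apply] at h
    change D.ord (e'.symm (A'.ρ g' a')) = D.ord (e'.symm a')
    rw [← h, LinearEquiv.symm_apply_apply, D.ord_ρ]
  π := e' D.π
  ord_π := by
    change D.ord (e'.symm (e' D.π)) = 1
    rw [LinearEquiv.symm_apply_apply, D.ord_π]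
  ρ_π := by rw [← he, D.ρ_π]
  V0 u' hu' hσu' := by
    have h1 : D.ord (e'.symm u') = 0 := hu'
    have h2 : A.ρ σ (e'.symm u') = e'.symm u' := by
      apply e'.injective
      rw [he, LinearEquiv.apply_symm_apply, hσu']
    obtain ⟨v, hv⟩ := D.V0 (e'.symm u') h1 h2
    refine ⟨e' v, ?_⟩
    rw [← nrm_transport e e' he, hv, LinearEquiv.apply_symm_apply]

theorem transportUnramData_ord {σ : G} {n : ℕ} (D : UnramData A σ n) (e : G ≃* G')
    (e' : A.V ≃ₗ[ℤ] A'.V) (he : ∀ (g : G) (a : A.V), e' (A.ρ g a) = A'.ρ (e g) (e' a))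
    (a' : A'.V) : (transportUnramData D e e' he).ord a' = D.ord (e'.symm a') := rfl

theorem transportUnramData_ord_apply {σ : G} {n : ℕ} (D : UnramData A σ n) (e : G ≃* G')
    (e' : A.V ≃ₗ[ℤ] A'.V) (he : ∀ (g : G) (a : A.V), e' (A.ρ g a) = A'.ρ (e g) (e' a))
    (a : A.V) : (transportUnramData D e e' he).ord (e' a) = D.ord a := by
  rw [transportUnramData_ord, LinearEquiv.symm_apply_apply]

theorem transportUnramData_π {σ : G} {n : ℕ} (D : UnramData A σ n) (e : G ≃* G')
    (e' : A.V ≃ₗ[ℤ] A'.V) (he : ∀ (g : G) (a : A.V), e' (A.ρ g a) = A'.ρ (e g) (e' a)) :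
    (transportUnramData D e e' he).π = e' D.π := rfl

end Generic


section Fields

variable (K E M : Type) [Field K] [Field E] [Field M] [Algebra K E] [Algebra E M] [Algebra K M]
  [IsScalarTower K E M]

/-- TOP LAYER: unramified-layer data for `Gal(M/E)` acting on `Mˣ` becomes unramified-layer data
for the subgroup `fixSub K E M ≤ Gal(M/K)` acting on `Mˣ`. -/
def unramDataRes {τ : M ≃ₐ[E] M} {m : ℕ} (D' : UnramData (unitsRep E M) τ m) :
    UnramData (res (fixSub K E M).subtype (unitsRep K M)) (fixSubEquiv K E M τ) m :=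
  transportUnramData (A' := res (fixSub K E M).subtype (unitsRep K M)) D' (fixSubEquiv K E M)
    (LinearEquiv.refl ℤ (Additive Mˣ)) (fun _ _ => rfl)

theorem unramDataRes_ord {τ : M ≃ₐ[E] M} {m : ℕ} (D' : UnramData (unitsRep E M) τ m)
    (a : Additive Mˣ) : (unramDataRes K E M D').ord a = D'.ord a := rfl

theorem unramDataRes_π {τ : M ≃ₐ[E] M} {m : ℕ} (D' : UnramData (unitsRep E M) τ m) :
    (unramDataRes K E M D').π = D'.π := rfl

variable [Normal K E] [FiniteDimensional K M] [IsGalois K M]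

theorem unitsInvEquiv_ρ (g : E ≃ₐ[K] E) (a : Additive Eˣ) :
    unitsInvEquiv K E M ((unitsRep K E).ρ g a) =
      ((unitsRep K M).quotientToInvariants (fixSub K E M)).ρ ((quotEquiv K E M).symm g)
        (unitsInvEquiv K E M a) := by
  obtain ⟨σ, rfl⟩ := restrictNormalHom_surj K E M g
  rw [quotEquiv_symm_restrictNormalHom]
  apply Subtype.ext
  refine Additive.toMul.injective (Units.ext ?_)
  exact AlgEquiv.restrictNormal_commutes σ E _

/-- BOTTOM LAYER: unramified-layer data for `Gal(E/K)` acting on `Eˣ` becomes unramified-layer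
data for `Gal(M/K) ⧸ Gal(M/E)` acting on `(Mˣ)^{Gal(M/E)}`. -/
def unramDataQuot {σ : E ≃ₐ[K] E} {d : ℕ} (D : UnramData (unitsRep K E) σ d) :
    UnramData ((unitsRep K M).quotientToInvariants (fixSub K E M))
      ((quotEquiv K E M).symm σ) d :=
  transportUnramData (A' := (unitsRep K M).quotientToInvariants (fixSub K E M)) D
    (quotEquiv K E M).symm (unitsInvEquiv K E M) (unitsInvEquiv_ρ K E M)

theorem unramDataQuot_ord_apply {σ : E ≃ₐ[K] E} {d : ℕ} (D : UnramData (unitsRep K E) σ d)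
    (u : Additive Eˣ) : (unramDataQuot K E M D).ord (unitsInvEquiv K E M u) = D.ord u :=
  transportUnramData_ord_apply D _ _ _ u

theorem unramDataQuot_π {σ : E ≃ₐ[K] E} {d : ℕ} (D : UnramData (unitsRep K E) σ d) :
    (unramDataQuot K E M D).π = unitsInvEquiv K E M D.π := rfl

/-- Every element of `(Mˣ)^{Gal(M/E)}` is the image of a unique element of `Eˣ`. -/
theorem exists_unitsInvEquiv_eq
    (a : ((unitsRep K M).quotientToInvariants (fixSub K E M)).V) :
    ∃ u : Additive Eˣ, unitsInvEquiv K E M u = a :=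
  (unitsInvEquiv K E M).surjective a

/-- The class in `Gal(M/K) ⧸ Gal(M/E)` of an element `g` corresponds to its restriction to `E`. -/
theorem mk_eq_quotEquiv_symm_pow_iff (g : M ≃ₐ[K] M) (σ : E ≃ₐ[K] E) (f : ℕ) :
    (QuotientGroup.mk g : (M ≃ₐ[K] M) ⧸ fixSub K E M) = ((quotEquiv K E M).symm σ) ^ f ↔
      AlgEquiv.restrictNormalHom E g = σ ^ f := by
  rw [← map_pow, MulEquiv.eq_symm_apply, quotEquiv_mk]

end Fields

end Fermat.Agent.CFT.GaloisDict
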